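/-
P-SS2 row 1043 (SS2-C1-KRON2), helper73:
`modelKron2 : ModelNormZStatement q → Fermat.Agent.H86.SS2.ModelKron2Statement M' q`.

Kronecker's congruence for `H` (helper8 `exists_kroneckerU_of_mem`), pulled back along
`t ↦ t^q`, is a monic polynomial `P = (X - H1^q)(X^q - H1) + q Ψ^β` with the roots `H2` and `H`;
"Kronecker twice" (helper62) is applied over the GRAPH RING
`R = {(s, e) ∈ ℤ((t)) × E₁ | e has expansion s and W_q e has an integral expansion}`,
so that the cofactor data `P*`, `G` live simultaneously in `ℤ((t))` and in the model field.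
-/
import Fermat.Agent.H86.SS2.Emb3Defs
import Fermat.Agent.H62.SS2.KroneckerTwice
import Fermat.Agent.H80.MW.Fixed

set_option autoImplicit false
set_option linter.style.haveILetI false
set_option linter.unusedSectionVars false

noncomputable section

namespace Fermat.Agent.H73.Kron2

open Polynomial ModularCurve AlgebraicCurve
open Fermat.Agent.H22.KL Fermat.Agent.H8.SS Fermat.Agent.H82.SS Fermat.Agent.H86.SS2

/-! ### Descent of integer series -/

/-- An integer series lying in `ℚ̄ F₀` lies in `F₀`. -/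
theorem int_mem_of_mem_bar (F₀ : IntermediateField ℚ (LaurentSeries ℚ)) (s : LaurentSeries ℤ)
    (hs : coeffMap (Int.castRingHom (AlgebraicClosure ℚ)) s ∈
      laurentBaseChange (AlgebraicClosure ℚ) F₀) :
    coeffMap (Int.castRingHom ℚ) s ∈ F₀ := by
  have hfix : ∀ σ : AlgebraicClosure ℚ ≃ₐ[ℚ] AlgebraicClosure ℚ,
      arithmeticGalois F₀ σ •
        (⟨_, hs⟩ : ↥(laurentBaseChange (AlgebraicClosure ℚ) F₀)) = ⟨_, hs⟩ := by
    intro σ
    apply Subtype.ext
    rw [coe_arithmeticGalois_smul]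
    show coeffMap _ (coeffMap _ s) = coeffMap _ s
    rw [coeffMap_coeffMap]
    exact coeffMap_congr (RingHom.ext_int _ _) s
  obtain ⟨f₀, hf₀⟩ := Fermat.Agent.H80.MW.fixed F₀ ⟨_, hs⟩ hfix
  have h1 : coeffEmb (AlgebraicClosure ℚ) (f₀ : LaurentSeries ℚ) =
      coeffMap (Int.castRingHom (AlgebraicClosure ℚ)) s := congrArg Subtype.val hf₀
  have h2 : coeffMap (Int.castRingHom (AlgebraicClosure ℚ)) s =
      coeffEmb (AlgebraicClosure ℚ) (coeffMap (Int.castRingHom ℚ) s) := by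
    rw [coeffEmb, coeffMap_coeffMap]
    exact coeffMap_congr (RingHom.ext_int _ _) s
  rw [h2] at h1
  have h3 := Fermat.Agent.H67.coeffMap_injective_of_injective (algebraMap ℚ (AlgebraicClosure ℚ))
    (algebraMap ℚ (AlgebraicClosure ℚ)).injective h1
  rw [← h3]
  exact f₀.2

/-- An integer series lying in `ℚ̄ F₀` lies in `K₁ F₀`. -/
theorem int_mem_model_of_mem_bar (K₁ : Type) [Field K₁] [Algebra ℚ K₁]
    (F₀ : IntermediateField ℚ (LaurentSeries ℚ)) (s : LaurentSeries ℤ)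
    (hs : coeffMap (Int.castRingHom (AlgebraicClosure ℚ)) s ∈
      laurentBaseChange (AlgebraicClosure ℚ) F₀) :
    coeffMap (Int.castRingHom K₁) s ∈ laurentBaseChange K₁ F₀ := by
  have h := coeffEmb_mem_laurentBaseChange K₁ (int_mem_of_mem_bar F₀ s hs)
  rw [coeffEmb, coeffMap_coeffMap] at h
  rw [coeffMap_congr (RingHom.ext_int (Int.castRingHom K₁)
    ((algebraMap ℚ K₁).comp (Int.castRingHom ℚ))) s]
  exact h

/-! ### Roots of the pulled-back Hecke polynomial -/

section Roots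

variable (q : ℕ) [hq : Fact q.Prime]

/-- `u` is a root of the pulled-back Frobenius polynomial (the factor `b = 0`). -/
theorem frobPoly_map_eval_self (u : LaurentSeries ℤ) :
    ((frobPoly q u).map (qExpand ℤ q)).eval u = 0 := by
  haveI : NeZero q := ⟨hq.out.ne_zero⟩
  haveI : NeZero ((q : ℕ) : AlgebraicClosure ℚ) := ⟨by exact_mod_cast hq.out.ne_zero⟩
  obtain ⟨ζ₀, hζ₀⟩ := HasEnoughRootsOfUnity.exists_primitiveRoot (AlgebraicClosure ℚ) q
  have hunit : IsUnit ζ₀ := hζ₀.isUnit hq.out.ne_zero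
  set ζ : (AlgebraicClosure ℚ)ˣ := hunit.unit with hζdef
  have hζ : IsPrimitiveRoot ((ζ : (AlgebraicClosure ℚ)ˣ) : AlgebraicClosure ℚ) q := by
    rw [hζdef, IsUnit.unit_spec]
    exact hζ₀
  set c := coeffMap (Int.castRingHom (AlgebraicClosure ℚ)) with hc
  have hcinj : Function.Injective c :=
    Fermat.Agent.H67.coeffMap_injective_of_injective _
      ((injective_iff_map_eq_zero (Int.castRingHom (AlgebraicClosure ℚ))).2
        (fun a ha => by
          rw [eq_intCast] at ha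
          exact_mod_cast ha))
  apply hcinj
  rw [map_zero]
  have hcomm : c.comp (qExpand ℤ q) = (qExpand (AlgebraicClosure ℚ) q).comp c := by
    ext x : 1
    simp [hc, ModularCurve.coeffMap_qExpand]
  have h1 : c (((frobPoly q u).map (qExpand ℤ q)).eval u) =
      ((frobPoly q (c u)).map (qExpand (AlgebraicClosure ℚ) q)).eval (c u) := by
    rw [← Polynomial.eval_map_apply, Polynomial.map_map, hcomm, ← Polynomial.map_map,
      hc, frobPoly_map]
  rw [h1, frobPoly_map_qExpand q ζ hζ, Polynomial.eval_prod]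
  apply Finset.prod_eq_zero (Finset.mem_range.2 hq.out.pos)
  rw [pow_zero, Fermat.Agent.H27.twist_one]
  simp

/-- `u` is a root of the pulled-back Hecke polynomial. -/
theorem heckeU_map_eval_self (u : LaurentSeries ℤ) :
    ((heckeU q u).map (qExpand ℤ q)).eval u = 0 := by
  rw [heckeU, Polynomial.map_mul, Polynomial.eval_mul, frobPoly_map_eval_self, mul_zero]

/-- `u(t^(q²))` is a root of the pulled-back Hecke polynomial. -/
theorem heckeU_map_eval_two (u : LaurentSeries ℤ) :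
    ((heckeU q u).map (qExpand ℤ q)).eval (qExpand ℤ q (qExpand ℤ q u)) = 0 := by
  haveI : NeZero q := ⟨hq.out.ne_zero⟩
  rw [Polynomial.eval_map_apply, heckeU_eval, map_zero]

end Roots

/-! ### The graph ring -/

section Graph

variable (K₁ : Type) [Field K₁] [Algebra ℚ K₁] (M' q : ℕ) [NeZero M'] [NeZero q]
  (Wq : ModelField K₁ (M' * q) ≃ₐ[K₁] ModelField K₁ (M' * q))

/-- Pairs `(s, e)`: the element `e` of the model field of level `M' q` has the integral
expansion `s`, and `W_q e` has an integral expansion. -/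
def graphRing : Subring (LaurentSeries ℤ × ModelField K₁ (M' * q)) where
  carrier := {x | ((x.2 : ModelField K₁ (M' * q)) : LaurentSeries K₁) =
      coeffMap (Int.castRingHom K₁) x.1 ∧
    ∃ g : LaurentSeries ℤ, ((Wq x.2 : ModelField K₁ (M' * q)) : LaurentSeries K₁) =
      coeffMap (Int.castRingHom K₁) g}
  mul_mem' := by
    rintro ⟨s, e⟩ ⟨s', e'⟩ ⟨h1, g, hg⟩ ⟨h1', g', hg'⟩
    refine ⟨?_, g * g', ?_⟩
    · show (((e * e' : ModelField K₁ (M' * q))) : LaurentSeries K₁) = coeffMap _ (s * s')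
      rw [map_mul, ← h1, ← h1']
      rfl
    · show ((Wq.toRingEquiv (e * e') : ModelField K₁ (M' * q)) : LaurentSeries K₁) = _
      rw [map_mul, map_mul, ← hg, ← hg']
      rfl
  one_mem' := by
    refine ⟨?_, 1, ?_⟩
    · show (((1 : ModelField K₁ (M' * q))) : LaurentSeries K₁) = coeffMap _ 1
      rw [map_one]
      rfl
    · show ((Wq.toRingEquiv 1 : ModelField K₁ (M' * q)) : LaurentSeries K₁) = _
      rw [map_one, map_one]
      rfl
  add_mem' := by
    rintro ⟨s, e⟩ ⟨s', e'⟩ ⟨h1, g, hg⟩ ⟨h1', g', hg'⟩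
    refine ⟨?_, g + g', ?_⟩
    · show (((e + e' : ModelField K₁ (M' * q))) : LaurentSeries K₁) = coeffMap _ (s + s')
      rw [map_add, ← h1, ← h1']
      rfl
    · show ((Wq.toRingEquiv (e + e') : ModelField K₁ (M' * q)) : LaurentSeries K₁) = _
      rw [map_add, map_add, ← hg, ← hg']
      rfl
  zero_mem' := by
    refine ⟨?_, 0, ?_⟩
    · show (((0 : ModelField K₁ (M' * q))) : LaurentSeries K₁) = coeffMap _ 0
      rw [map_zero]
      rfl
    · show ((Wq.toRingEquiv 0 : ModelField K₁ (M' * q)) : LaurentSeries K₁) = _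
      rw [map_zero, map_zero]
      rfl
  neg_mem' := by
    rintro ⟨s, e⟩ ⟨h1, g, hg⟩
    refine ⟨?_, -g, ?_⟩
    · show (((-e : ModelField K₁ (M' * q))) : LaurentSeries K₁) = coeffMap _ (-s)
      rw [map_neg, ← h1]
      rfl
    · show ((Wq.toRingEquiv (-e) : ModelField K₁ (M' * q)) : LaurentSeries K₁) = _
      rw [map_neg, map_neg, ← hg]
      rfl

/-- the projection to `ℤ((t))` -/
def pi1 : ↥(graphRing K₁ M' q Wq) →+* LaurentSeries ℤ :=
  (RingHom.fst _ _).comp (graphRing K₁ M' q Wq).subtype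

/-- the projection to the model field -/
def pi2 : ↥(graphRing K₁ M' q Wq) →+* ModelField K₁ (M' * q) :=
  (RingHom.snd _ _).comp (graphRing K₁ M' q Wq).subtype

variable {K₁ M' q Wq}

theorem coe_pi2 (x : ↥(graphRing K₁ M' q Wq)) :
    ((pi2 K₁ M' q Wq x : ModelField K₁ (M' * q)) : LaurentSeries K₁) =
      coeffMap (Int.castRingHom K₁) (pi1 K₁ M' q Wq x) := x.2.1

theorem wq_pi2 (x : ↥(graphRing K₁ M' q Wq)) :
    ∃ g : LaurentSeries ℤ, ((Wq (pi2 K₁ M' q Wq x) : ModelField K₁ (M' * q)) :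
      LaurentSeries K₁) = coeffMap (Int.castRingHom K₁) g := x.2.2

theorem pi1_injective : Function.Injective (pi1 K₁ M' q Wq) := by
  intro x y hxy
  apply Subtype.ext
  apply Prod.ext
  · exact hxy
  · apply Subtype.ext
    have hx := coe_pi2 x
    have hy := coe_pi2 y
    rw [hxy] at hx
    exact hx.trans hy.symm

theorem mem_graph_alpha (hW : IsAtkinLehnerModel K₁ M' q Wq) (s : LaurentSeries ℤ)
    (e : ModelField K₁ M')
    (he : (e : LaurentSeries K₁) = coeffMap (Int.castRingHom K₁) s) :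
    ((s, heckeAlphaBar K₁ M' q e) : LaurentSeries ℤ × ModelField K₁ (M' * q)) ∈
      graphRing K₁ M' q Wq := by
  refine ⟨?_, qExpand ℤ q s, ?_⟩
  · show ((heckeAlphaBar K₁ M' q e : ModelField K₁ (M' * q)) : LaurentSeries K₁) = _
    rw [coe_heckeAlphaBar, he]
  · show ((Wq (heckeAlphaBar K₁ M' q e) : ModelField K₁ (M' * q)) : LaurentSeries K₁) = _
    rw [hW.1 e, coe_heckeBetaBar, he, ModularCurve.coeffMap_qExpand]

theorem mem_graph_beta (hW : IsAtkinLehnerModel K₁ M' q Wq) (s : LaurentSeries ℤ)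
    (e : ModelField K₁ M')
    (he : (e : LaurentSeries K₁) = coeffMap (Int.castRingHom K₁) s) :
    ((qExpand ℤ q s, heckeBetaBar K₁ M' q e) : LaurentSeries ℤ × ModelField K₁ (M' * q)) ∈
      graphRing K₁ M' q Wq := by
  refine ⟨?_, s, ?_⟩
  · show ((heckeBetaBar K₁ M' q e : ModelField K₁ (M' * q)) : LaurentSeries K₁) = _
    rw [coe_heckeBetaBar, he, ModularCurve.coeffMap_qExpand]
  · show ((Wq (heckeBetaBar K₁ M' q e) : ModelField K₁ (M' * q)) : LaurentSeries K₁) = _
    rw [hW.2 e, coe_heckeAlphaBar, he]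

end Graph

/-! ### Auxiliary facts in `ℤ((t))` -/

section Aux

variable (q : ℕ) [hq : Fact q.Prime]

theorem sH2_ne_sH : qExpand ℤ q (qExpand ℤ q (h4S ℤ)) ≠ h4S ℤ := by
  haveI : NeZero q := ⟨hq.out.ne_zero⟩
  intro h
  have h1 := congrArg (fun x : LaurentSeries ℤ => x.coeff (-1)) h
  simp only [h4S_coeff_neg_one] at h1
  rw [qExpand_coeff_of_not_dvd] at h1
  · exact zero_ne_one h1
  · intro hdvd
    have h2 : (q : ℤ) ∣ 1 := (dvd_neg.1 hdvd)
    have h3 : (q : ℤ) = 1 := by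
      have := Int.eq_one_of_dvd_one (by positivity) h2
      exact this
    have : q = 1 := by exact_mod_cast h3
    exact hq.out.one_lt.ne' this

theorem natCast_ne_zero_laurent : ((q : ℕ) : LaurentSeries ℤ) ≠ 0 := by
  intro h
  have h1 := congrArg (fun x : LaurentSeries ℤ => x.coeff 0) h
  have h2 : ((q : ℕ) : LaurentSeries ℤ) = HahnSeries.C ((q : ℕ) : ℤ) := by
    rw [map_natCast]
  rw [h2] at h1
  have h3 : (HahnSeries.C ((q : ℕ) : ℤ) : LaurentSeries ℤ).coeff 0 = ((q : ℕ) : ℤ) := by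
    rw [HahnSeries.C_apply, HahnSeries.coeff_single_same]
  simp only [h3, HahnSeries.coeff_zero] at h1
  exact hq.out.ne_zero (by exact_mod_cast h1)

end Aux

/-! ### Kronecker twice, transported along an injective ring homomorphism -/

section Transport

variable {R S : Type*} [CommRing R] [CommRing S] [Nontrivial R] [Nontrivial S]

/-- `kronecker_twice_monic` over `R`, read off in `S` along an injective `π : R →+* S`. -/
theorem kron_transport (π : R →+* S) (hπ : Function.Injective π) (q : ℕ) (hq : q.Prime)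
    (h h₁ : R) (Ψ' : Polynomial R) (hΨ' : Ψ'.natDegree ≤ q)
    (hroot : ((X - C (π h₁ ^ q)) * (X ^ q - C (π h₁)) +
      C (q : S) * Ψ'.map π).eval (π h) = 0) :
    ∃ Pstar G : Polynomial R,
      (X - C (π h)) * Pstar.map π =
        (X - C (π h₁ ^ q)) * (X ^ q - C (π h₁)) + C (q : S) * Ψ'.map π ∧
      (Pstar.map π).comp (X + C (π h)) =
        X ^ (q - 1) * (X + C (π h - π h₁ ^ q)) - C (π h₁ - π h ^ q) +
          C (q : S) * G.map π ∧
      (Pstar.map π).Monic ∧ (Pstar.map π).natDegree = q := by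
  have hmap : ((X - C (h₁ ^ q)) * (X ^ q - C h₁) + C (q : R) * Ψ').map π =
      (X - C (π h₁ ^ q)) * (X ^ q - C (π h₁)) + C (q : S) * Ψ'.map π := by
    simp only [Polynomial.map_add, Polynomial.map_sub, Polynomial.map_mul, Polynomial.map_pow,
      Polynomial.map_X, Polynomial.map_C, map_pow, map_natCast, Polynomial.map_natCast]
  have hroot' : ((X - C (h₁ ^ q)) * (X ^ q - C h₁) + C (q : R) * Ψ').eval h = 0 := by
    apply hπ
    rw [map_zero, ← Polynomial.eval_map_apply, hmap]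
    exact hroot
  obtain ⟨-, Pstar, G, hmon, hdeg, hfac, hcomp⟩ :=
    Fermat.Agent.H62.SS2.kronecker_twice_monic q hq h h₁ Ψ' hΨ' hroot'
  refine ⟨Pstar, G, ?_, ?_, hmon.map _, ?_⟩
  · rw [← hmap, hfac, Polynomial.map_mul, Polynomial.map_sub, Polynomial.map_X,
      Polynomial.map_C]
  · have h1 := congrArg (Polynomial.map π) hcomp
    rw [Polynomial.map_comp] at h1
    rw [show (X + C h : Polynomial R).map π = X + C (π h) by
      rw [Polynomial.map_add, Polynomial.map_X, Polynomial.map_C]] at h1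
    rw [h1]
    simp only [Polynomial.map_add, Polynomial.map_sub, Polynomial.map_mul, Polynomial.map_pow,
      Polynomial.map_X, Polynomial.map_C, map_pow, map_sub, map_natCast, Polynomial.map_natCast]
  · rw [hmon.natDegree_map, hdeg]

end Transport

/-! ### The main theorem -/

section Main

variable (M' q : ℕ) [NeZero M'] [NeZero q] [hq : Fact q.Prime]

/-- The coefficient polynomial `Ψ^β` over the graph ring. -/
theorem exists_graph_psi
    (K₁ : Type) [Field K₁] [Algebra ℚ K₁]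
    (Wq : ModelField K₁ (M' * q) ≃ₐ[K₁] ModelField K₁ (M' * q))
    (hW : IsAtkinLehnerModel K₁ M' q Wq) (Ψ : Polynomial (LaurentSeries ℤ))
    (hΨdeg : Ψ.natDegree ≤ q)
    (hψ : ∀ i, coeffMap (Int.castRingHom K₁) (Ψ.coeff i) ∈
      laurentBaseChange K₁ (modularFunctionFieldFull M')) :
    ∃ Ψ' : Polynomial ↥(graphRing K₁ M' q Wq), Ψ'.natDegree ≤ q ∧
      Ψ'.map (pi1 K₁ M' q Wq) = Ψ.map (qExpand ℤ q) := by
  have key : ∀ i, ∃ x : ↥(graphRing K₁ M' q Wq),
      pi1 K₁ M' q Wq x = qExpand ℤ q (Ψ.coeff i) := fun i =>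
    ⟨⟨(qExpand ℤ q (Ψ.coeff i), heckeBetaBar K₁ M' q ⟨_, hψ i⟩),
      mem_graph_beta hW (Ψ.coeff i) ⟨_, hψ i⟩ rfl⟩, rfl⟩
  choose ψ hπψ using key
  refine ⟨∑ i ∈ Finset.range (q + 1), C (ψ i) * X ^ i, ?_, ?_⟩
  · apply Polynomial.natDegree_sum_le_of_forall_le
    intro i hi
    refine (Polynomial.natDegree_C_mul_X_pow_le _ _).trans ?_
    have := Finset.mem_range.mp hi
    omega
  · ext i : 1
    rw [Polynomial.coeff_map, Polynomial.coeff_map, Polynomial.finsetSum_coeff]
    simp only [Polynomial.coeff_C_mul, Polynomial.coeff_X_pow, mul_ite, mul_one, mul_zero]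
    rw [Finset.sum_ite_eq (Finset.range (q + 1)) i (fun j => ψ j)]
    split_ifs with hi
    · exact hπψ i
    · rw [Finset.mem_range, not_lt] at hi
      rw [map_zero, Polynomial.coeff_eq_zero_of_natDegree_lt (by omega), map_zero]

/-- The two base points `h`, `h₁` of the graph ring. -/
theorem exists_graph_h (h4 : 4 ∣ M')
    (K₁ : Type) [Field K₁] [Algebra ℚ K₁]
    (Wq : ModelField K₁ (M' * q) ≃ₐ[K₁] ModelField K₁ (M' * q))
    (hW : IsAtkinLehnerModel K₁ M' q Wq) :
    ∃ h h₁ : ↥(graphRing K₁ M' q Wq), pi1 K₁ M' q Wq h = h4S ℤ ∧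
      pi1 K₁ M' q Wq h₁ = qExpand ℤ q (h4S ℤ) := by
  have hH : h4S K₁ ∈ laurentBaseChange K₁ (modularFunctionFieldFull M') :=
    h4S_mem_laurentBaseChange K₁ M' h4
  exact ⟨⟨(h4S ℤ, heckeAlphaBar K₁ M' q ⟨h4S K₁, hH⟩),
      mem_graph_alpha hW (h4S ℤ) ⟨h4S K₁, hH⟩ (coeffMap_h4S _).symm⟩,
    ⟨(qExpand ℤ q (h4S ℤ), heckeBetaBar K₁ M' q ⟨h4S K₁, hH⟩),
      mem_graph_beta hW (h4S ℤ) ⟨h4S K₁, hH⟩ (coeffMap_h4S _).symm⟩, rfl, rfl⟩

/-- The Kronecker data over the graph ring. -/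
theorem exists_graph_kron (h4 : 4 ∣ M') (hqM : ¬ q ∣ M')
    (K₁ : Type) [Field K₁] [Algebra ℚ K₁]
    (Wq : ModelField K₁ (M' * q) ≃ₐ[K₁] ModelField K₁ (M' * q))
    (hW : IsAtkinLehnerModel K₁ M' q Wq) :
    ∃ (Pstar G : Polynomial ↥(graphRing K₁ M' q Wq)),
      (X - C (h4S ℤ)) * Pstar.map (pi1 K₁ M' q Wq) =
        (heckeU q (h4S ℤ)).map (qExpand ℤ q) ∧
      (Pstar.map (pi1 K₁ M' q Wq)).comp (X + C (h4S ℤ)) =
        X ^ (q - 1) * (X + C (sY1 ℤ q)) - C (sX1 ℤ q) +
          C (q : LaurentSeries ℤ) * G.map (pi1 K₁ M' q Wq) ∧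
      (Pstar.map (pi1 K₁ M' q Wq)).Monic ∧ (Pstar.map (pi1 K₁ M' q Wq)).natDegree = q := by
  have hqp : q.Prime := hq.out
  -- Kronecker for `H` over `ℤ((t))`
  obtain ⟨Ψ, δ, hΨdeg, hΨmem, hΨ, -, -, -, -⟩ := exists_kroneckerU_of_mem q M' hqM (h4S ℤ)
    (by rw [coeffMap_h4S]; exact h4S_mem_bar M' h4)
  have hψ : ∀ i, coeffMap (Int.castRingHom K₁) (Ψ.coeff i) ∈
      laurentBaseChange K₁ (modularFunctionFieldFull M') :=
    fun i => int_mem_model_of_mem_bar K₁ _ _ (hΨmem i)
  obtain ⟨Ψ', hΨ'deg, hΨ'map⟩ := exists_graph_psi M' q K₁ Wq hW Ψ hΨdeg hψ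
  obtain ⟨h, h₁, hπh, hπh₁⟩ := exists_graph_h M' q h4 K₁ Wq hW
  have hU : (heckeU q (h4S ℤ)).map (qExpand ℤ q) =
      (X - C (pi1 K₁ M' q Wq h₁ ^ q)) * (X ^ q - C (pi1 K₁ M' q Wq h₁)) +
        C (q : LaurentSeries ℤ) * Ψ'.map (pi1 K₁ M' q Wq) := by
    rw [hΨ, hΨ'map, hπh₁, kronU]
    simp only [Polynomial.map_add, Polynomial.map_sub, Polynomial.map_mul, Polynomial.map_pow,
      Polynomial.map_X, Polynomial.map_C, map_pow, zsmul_eq_mul,
      Int.cast_natCast, Polynomial.C_eq_natCast, Polynomial.map_natCast]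
  have hroot : ((X - C (pi1 K₁ M' q Wq h₁ ^ q)) * (X ^ q - C (pi1 K₁ M' q Wq h₁)) +
      C (q : LaurentSeries ℤ) * Ψ'.map (pi1 K₁ M' q Wq)).eval (pi1 K₁ M' q Wq h) = 0 := by
    rw [← hU, hπh]
    exact heckeU_map_eval_self q (h4S ℤ)
  obtain ⟨Pstar, G, hfac, hcomp, hmon, hdeg⟩ :=
    kron_transport (pi1 K₁ M' q Wq) pi1_injective q hqp h h₁ Ψ' hΨ'deg hroot
  refine ⟨Pstar, G, ?_, ?_, hmon, hdeg⟩
  · rw [hU, ← hfac, hπh]
  · rw [hπh, hπh₁] at hcomp
    rw [hcomp]
    rfl

end Main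

/-! ### Generic algebra for the final assembly -/

section Generic

/-- The degree bound for `G`. -/
theorem natDegree_G_lt {S : Type*} [CommRing S] [IsDomain S] (q : ℕ) (hq : 2 ≤ q)
    (hqS : (q : S) ≠ 0) (A G : Polynomial S) (x y : S) (hA : A.Monic) (hAd : A.natDegree = q)
    (hrel : A = X ^ (q - 1) * (X + C y) - C x + C (q : S) * G) :
    G.natDegree < q := by
  have hB : (X ^ (q - 1) * (X + C y) : Polynomial S).Monic :=
    (monic_X_pow _).mul (monic_X_add_C y)
  have hBd : (X ^ (q - 1) * (X + C y) : Polynomial S).natDegree = q := by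
    rw [(monic_X_pow _).natDegree_mul (monic_X_add_C y), natDegree_X_pow, natDegree_X_add_C]
    omega
  have hG : C (q : S) * G = (A - X ^ (q - 1) * (X + C y)) + C x := by
    rw [hrel]
    ring
  have hqpos : (0 : WithBot ℕ) < (q : WithBot ℕ) := by
    have : 0 < q := by omega
    exact_mod_cast this
  have h1 : (A - X ^ (q - 1) * (X + C y)).degree < (q : WithBot ℕ) := by
    have hAdeg : A.degree = (q : WithBot ℕ) := by
      rw [Polynomial.degree_eq_natDegree hA.ne_zero, hAd]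
    have hBdeg : (X ^ (q - 1) * (X + C y) : Polynomial S).degree = (q : WithBot ℕ) := by
      rw [Polynomial.degree_eq_natDegree hB.ne_zero, hBd]
    have := Polynomial.degree_sub_lt_left (hAdeg.trans hBdeg.symm) hA.ne_zero
      (by rw [hA.leadingCoeff, hB.leadingCoeff])
    rwa [hAdeg] at this
  have h2 : (C x : Polynomial S).degree < (q : WithBot ℕ) :=
    lt_of_le_of_lt Polynomial.degree_C_le hqpos
  have h3 : (C (q : S) * G).degree < (q : WithBot ℕ) := by
    rw [hG]
    exact lt_of_le_of_lt (Polynomial.degree_add_le _ _) (max_lt h1 h2)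
  rw [Polynomial.degree_C_mul hqS] at h3
  by_cases hG0 : G = 0
  · rw [hG0, natDegree_zero]
    omega
  · exact (Polynomial.natDegree_lt_iff_degree_lt hG0).2 h3

/-- Transport of the relation `z^(q-1) (z + y) - x + q G(z) = 0` along a commuting square. -/
theorem rel_transport {R A T E : Type*} [CommRing R] [CommRing A] [CommRing T] [CommRing E]
    (c : A →+* T) (ι : E →+* T) (hι : Function.Injective ι) (π₁ : R →+* A) (f : R →+* E)
    (hsq : ∀ r, ι (f r) = c (π₁ r)) (q : ℕ) (G : Polynomial R)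
    (z y x : E) (zA yA xA : A) (hz : ι z = c zA) (hy : ι y = c yA) (hx : ι x = c xA)
    (hrel : zA ^ (q - 1) * (zA + yA) - xA + (q : A) * (G.map π₁).eval zA = 0) :
    z ^ (q - 1) * (z + y) - x + (q : E) * (G.map f).eval z = 0 := by
  apply hι
  have hG : ι ((G.map f).eval z) = c ((G.map π₁).eval zA) := by
    rw [Polynomial.eval_map, Polynomial.eval_map, Polynomial.hom_eval₂, Polynomial.hom_eval₂, hz]
    congr 1
    ext r
    exact hsq r
  rw [map_zero, map_add, map_sub, map_mul, map_mul, map_pow, map_add, map_natCast, hG, hz, hy,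
    hx, ← map_zero c, ← hrel]
  simp only [map_add, map_sub, map_mul, map_pow, map_natCast]

end Generic

/-! ### Base change of the series -/

section Series

variable {A B : Type} [CommRing A] [CommRing B] (φ : A →+* B) (q : ℕ) [NeZero q]

theorem coeffMap_sX1 : coeffMap φ (sX1 A q) = sX1 B q := by
  unfold sX1 sH1 sH
  rw [map_sub, map_pow, ModularCurve.coeffMap_qExpand, coeffMap_h4S]

theorem coeffMap_sY1 : coeffMap φ (sY1 A q) = sY1 B q := by
  unfold sY1 sH1 sH
  rw [map_sub, map_pow, ModularCurve.coeffMap_qExpand, coeffMap_h4S]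

theorem coeffMap_sZ : coeffMap φ (sZ A q) = sZ B q := by
  unfold sZ sH2 sH
  rw [map_sub, ModularCurve.coeffMap_qExpand, ModularCurve.coeffMap_qExpand, coeffMap_h4S]

end Series

/-! ### Row 1043 -/

section Row

variable (M' q : ℕ) [NeZero M'] [NeZero q] [hq : Fact q.Prime]

/-- The relation in `ℤ((t))`. -/
theorem rel_int (Pst G₁ : Polynomial (LaurentSeries ℤ))
    (hfac : (X - C (h4S ℤ)) * Pst = (heckeU q (h4S ℤ)).map (qExpand ℤ q))
    (hcomp : Pst.comp (X + C (h4S ℤ)) =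
        X ^ (q - 1) * (X + C (sY1 ℤ q)) - C (sX1 ℤ q) + C (q : LaurentSeries ℤ) * G₁) :
    sZ ℤ q ^ (q - 1) * (sZ ℤ q + sY1 ℤ q) - sX1 ℤ q +
      (q : LaurentSeries ℤ) * G₁.eval (sZ ℤ q) = 0 := by
  have h2 : Pst.eval (sH2 ℤ q) = 0 := by
    have h := congrArg (Polynomial.eval (sH2 ℤ q)) hfac
    rw [Polynomial.eval_mul, Polynomial.eval_sub, Polynomial.eval_X, Polynomial.eval_C] at h
    have h' : ((heckeU q (h4S ℤ)).map (qExpand ℤ q)).eval (sH2 ℤ q) = 0 :=
      heckeU_map_eval_two q (h4S ℤ)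
    rw [h'] at h
    rcases mul_eq_zero.1 h with h0 | h0
    · exact absurd (sub_eq_zero.1 h0) (sH2_ne_sH q)
    · exact h0
  have h3 := congrArg (Polynomial.eval (sZ ℤ q)) hcomp
  rw [Polynomial.eval_comp, Polynomial.eval_add, Polynomial.eval_X, Polynomial.eval_C] at h3
  have h4 : sZ ℤ q + h4S ℤ = sH2 ℤ q := by
    unfold sZ sH
    ring
  rw [h4, h2] at h3
  rw [h3]
  simp only [Polynomial.eval_add, Polynomial.eval_sub, Polynomial.eval_mul, Polynomial.eval_pow,
    Polynomial.eval_X, Polynomial.eval_C]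

end Row

end Fermat.Agent.H73.Kron2

end
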