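/-
P-SS2 row 1043 (SS2-C1-KRON2), helper73: the final assembly
`modelKron2 : ModelNormZStatement q → Fermat.Agent.H86.SS2.ModelKron2Statement M' q`.
-/
import Fermat.Agent.H73.SS2.Kron2

set_option autoImplicit false
set_option linter.style.haveILetI false
set_option linter.unusedSectionVars false

noncomputable section

namespace Fermat.Agent.H73.Kron2

open Polynomial ModularCurve AlgebraicCurve
open Fermat.Agent.H22.KL Fermat.Agent.H8.SS Fermat.Agent.H82.SS Fermat.Agent.H86.SS2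

section Row

variable (M' q : ℕ) [NeZero M'] [NeZero q] [hq : Fact q.Prime]

/-- the degree of `G` over the graph ring -/
theorem graph_G_natDegree_lt
    (K₁ : Type) [Field K₁] [Algebra ℚ K₁]
    (Wq : ModelField K₁ (M' * q) ≃ₐ[K₁] ModelField K₁ (M' * q))
    (Pstar G : Polynomial ↥(graphRing K₁ M' q Wq))
    (hcomp : (Pstar.map (pi1 K₁ M' q Wq)).comp (X + C (h4S ℤ)) =
        X ^ (q - 1) * (X + C (sY1 ℤ q)) - C (sX1 ℤ q) +
          C (q : LaurentSeries ℤ) * G.map (pi1 K₁ M' q Wq))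
    (hmon : (Pstar.map (pi1 K₁ M' q Wq)).Monic)
    (hdeg : (Pstar.map (pi1 K₁ M' q Wq)).natDegree = q) :
    (G.map (pi2 K₁ M' q Wq)).natDegree < q := by
  have hqp : q.Prime := hq.out
  have h1 : (G.map (pi1 K₁ M' q Wq)).natDegree < q := by
    refine natDegree_G_lt q hqp.two_le (natCast_ne_zero_laurent q)
      ((Pstar.map (pi1 K₁ M' q Wq)).comp (X + C (h4S ℤ))) _ (sX1 ℤ q) (sY1 ℤ q) ?_ ?_ hcomp
    · refine hmon.comp (monic_X_add_C _) ?_
      rw [natDegree_X_add_C]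
      exact one_ne_zero
    · rw [Polynomial.natDegree_comp, hdeg, natDegree_X_add_C, mul_one]
  rw [Polynomial.natDegree_map_eq_of_injective pi1_injective] at h1
  exact lt_of_le_of_lt (Polynomial.natDegree_map_le) h1

/-- the constant term -/
theorem graph_const (hNZ : ModelNormZStatement q) (hq2 : q ≠ 2)
    (K₁ : Type) [Field K₁] [Algebra ℚ K₁]
    (Wq : ModelField K₁ (M' * q) ≃ₐ[K₁] ModelField K₁ (M' * q))
    (Pstar G : Polynomial ↥(graphRing K₁ M' q Wq))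
    (hfac : (X - C (h4S ℤ)) * Pstar.map (pi1 K₁ M' q Wq) =
        (heckeU q (h4S ℤ)).map (qExpand ℤ q))
    (hcomp : (Pstar.map (pi1 K₁ M' q Wq)).comp (X + C (h4S ℤ)) =
        X ^ (q - 1) * (X + C (sY1 ℤ q)) - C (sX1 ℤ q) +
          C (q : LaurentSeries ℤ) * G.map (pi1 K₁ M' q Wq)) :
    ∃ B : LaurentSeries ℤ, redQ q B ≠ 0 ∧
        - sX1 K₁ q + (q : LaurentSeries K₁) *
            (((G.map (pi2 K₁ M' q Wq)).coeff 0 : ModelField K₁ (M' * q)) : LaurentSeries K₁) =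
          (q : LaurentSeries K₁) * coeffMap (Int.castRingHom K₁) B := by
  have hqp : q.Prime := hq.out
  obtain ⟨B, hB, hBred⟩ := hNZ hq2 _ hfac
  have heval := Fermat.Agent.H62.SS2.kronecker_twice_eval q hqp (h4S ℤ) (qExpand ℤ q (h4S ℤ))
    (Pstar.map (pi1 K₁ M' q Wq)) (G.map (pi1 K₁ M' q Wq)) hcomp
  refine ⟨B, hBred, ?_⟩
  rw [Polynomial.coeff_map, coe_pi2, ← Polynomial.coeff_map,
    Polynomial.coeff_zero_eq_eval_zero, ← coeffMap_sX1 (Int.castRingHom K₁) q]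
  have h1 : -(sX1 ℤ q) + (q : LaurentSeries ℤ) * (G.map (pi1 K₁ M' q Wq)).eval 0 =
      (q : LaurentSeries ℤ) * B := by
    rw [← hB, heval]
    rfl
  have h2 := congrArg (coeffMap (Int.castRingHom K₁)) h1
  rw [map_add, map_neg, map_mul, map_mul, map_natCast] at h2
  exact h2

/-- the commuting square `ι₂ ∘ α₂ ∘ π₂ = c ∘ π₁` -/
theorem graph_square
    (K₁ : Type) [Field K₁] [Algebra ℚ K₁]
    (Wq : ModelField K₁ (M' * q) ≃ₐ[K₁] ModelField K₁ (M' * q))
    (r : ↥(graphRing K₁ M' q Wq)) :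
    ((heckeAlphaBar K₁ (M' * q) q (pi2 K₁ M' q Wq r) :
        ModelField K₁ (M' * q * q)) : LaurentSeries K₁) =
      coeffMap (Int.castRingHom K₁) (pi1 K₁ M' q Wq r) := by
  rw [coe_heckeAlphaBar, coe_pi2]

/-- `rel_transport` for an intermediate field with its coercion -/
theorem rel_transport_if {R A K T : Type*} [CommRing R] [CommRing A] [Field K] [Field T]
    [Algebra K T] (F : IntermediateField K T) (c : A →+* T) (π₁ : R →+* A) (f : R →+* ↥F)
    (hsq : ∀ r, ((f r : ↥F) : T) = c (π₁ r)) (q : ℕ) (G : Polynomial R)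
    (z y x : ↥F) (zA yA xA : A) (hz : (z : T) = c zA) (hy : (y : T) = c yA)
    (hx : (x : T) = c xA)
    (hrel : zA ^ (q - 1) * (zA + yA) - xA + (q : A) * (G.map π₁).eval zA = 0) :
    z ^ (q - 1) * (z + y) - x + (q : ↥F) * (G.map f).eval z = 0 :=
  rel_transport c (algebraMap ↥F T) (algebraMap ↥F T).injective π₁ f hsq q G z y x zA yA xA
    hz hy hx hrel

/-- the relation in `E₂` -/
theorem graph_rel
    (K₁ : Type) [Field K₁] [Algebra ℚ K₁]
    (Wq : ModelField K₁ (M' * q) ≃ₐ[K₁] ModelField K₁ (M' * q))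
    (Pstar G : Polynomial ↥(graphRing K₁ M' q Wq))
    (hfac : (X - C (h4S ℤ)) * Pstar.map (pi1 K₁ M' q Wq) =
        (heckeU q (h4S ℤ)).map (qExpand ℤ q))
    (hcomp : (Pstar.map (pi1 K₁ M' q Wq)).comp (X + C (h4S ℤ)) =
        X ^ (q - 1) * (X + C (sY1 ℤ q)) - C (sX1 ℤ q) +
          C (q : LaurentSeries ℤ) * G.map (pi1 K₁ M' q Wq))
    (X Y : ModelField K₁ (M' * q)) (Z : ModelField K₁ (M' * q * q))
    (hX : (X : LaurentSeries K₁) = sX1 K₁ q) (hY : (Y : LaurentSeries K₁) = sY1 K₁ q)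
    (hZ : (Z : LaurentSeries K₁) = sZ K₁ q) :
    Z ^ (q - 1) * (Z + heckeAlphaBar K₁ (M' * q) q Y) - heckeAlphaBar K₁ (M' * q) q X +
      (q : ModelField K₁ (M' * q * q)) *
        ((G.map (pi2 K₁ M' q Wq)).map (heckeAlphaBar K₁ (M' * q) q).toRingHom).eval Z = 0 := by
  rw [Polynomial.map_map]
  refine rel_transport_if (laurentBaseChange K₁ (modularFunctionFieldFull (M' * q * q)))
    (coeffMap (Int.castRingHom K₁)) (pi1 K₁ M' q Wq)
    ((heckeAlphaBar K₁ (M' * q) q).toRingHom.comp (pi2 K₁ M' q Wq)) ?_ q G Z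
    (heckeAlphaBar K₁ (M' * q) q Y) (heckeAlphaBar K₁ (M' * q) q X)
    (sZ ℤ q) (sY1 ℤ q) (sX1 ℤ q) ?_ ?_ ?_
    (rel_int q (Pstar.map (pi1 K₁ M' q Wq)) (G.map (pi1 K₁ M' q Wq)) hfac hcomp)
  · intro r
    exact graph_square M' q K₁ Wq r
  · rw [hZ, coeffMap_sZ]
  · rw [coe_heckeAlphaBar, hY, coeffMap_sY1]
  · rw [coe_heckeAlphaBar, hX, coeffMap_sX1]

/-- **Row 1043 (SS2-C1-KRON2).** -/
theorem modelKron2 : ModelNormZStatement q → ModelKron2Statement M' q := by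
  intro hNZ hq2 h4 hqM K₁ _ _ _ Wq hW
  obtain ⟨Pstar, G, hfac, hcomp, hmon, hdeg⟩ := exists_graph_kron M' q h4 hqM K₁ Wq hW
  refine ⟨G.map (pi2 K₁ M' q Wq), graph_G_natDegree_lt M' q K₁ Wq Pstar G hcomp hmon hdeg,
    ?_, ?_, graph_const M' q hNZ hq2 K₁ Wq Pstar G hfac hcomp, ?_⟩
  · intro i
    rw [Polynomial.coeff_map]
    exact ⟨_, coe_pi2 _⟩
  · intro i
    rw [Polynomial.coeff_map]
    exact wq_pi2 _
  · intro X Y Z hX hY hZ
    exact graph_rel M' q K₁ Wq Pstar G hfac hcomp X Y Z hX hY hZ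

end Row

end Fermat.Agent.H73.Kron2

end
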