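/-
P-SS2 (twin of row 1043 for an arbitrary Hauptmodul), helper73:
the GENERIC form of `modelKron2`: for ANY integer series `u` lying in the modular function
field of level `M'` (over `ℚ̄`), with `u(t^(q²)) ≠ u` and with the norm statement
`P*(u) = q B`, `B̄ ≠ 0`, the relation `Z^(q-1) (Z + Y1) - X1 + q G(Z) = 0` holds in
`E₂ = ModelField K₁ (M' q q)` with `G` integral, where
`X1 = u(t^q) - u^q`, `Y1 = u - u(t^q)^q`, `Z = u(t^(q²)) - u`.
-/
import Fermat.Agent.H73.SS2.Kron2Main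

set_option autoImplicit false
set_option linter.style.haveILetI false
set_option linter.unusedSectionVars false

noncomputable section

namespace Fermat.Agent.H73.Kron2

open Polynomial ModularCurve AlgebraicCurve
open Fermat.Agent.H22.KL Fermat.Agent.H8.SS Fermat.Agent.H82.SS Fermat.Agent.H86.SS2

section Gen

variable (M' q : ℕ) [NeZero M'] [NeZero q] [hq : Fact q.Prime]

/-- The two base points `h`, `h₁` of the graph ring, for a general series `u`. -/
theorem exists_graph_h_gen (u : LaurentSeries ℤ)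
    (K₁ : Type) [Field K₁] [Algebra ℚ K₁]
    (hu : coeffMap (Int.castRingHom K₁) u ∈ laurentBaseChange K₁ (modularFunctionFieldFull M'))
    (Wq : ModelField K₁ (M' * q) ≃ₐ[K₁] ModelField K₁ (M' * q))
    (hW : IsAtkinLehnerModel K₁ M' q Wq) :
    ∃ h h₁ : ↥(graphRing K₁ M' q Wq), pi1 K₁ M' q Wq h = u ∧
      pi1 K₁ M' q Wq h₁ = qExpand ℤ q u :=
  ⟨⟨(u, heckeAlphaBar K₁ M' q ⟨_, hu⟩), mem_graph_alpha hW u ⟨_, hu⟩ rfl⟩,
    ⟨(qExpand ℤ q u, heckeBetaBar K₁ M' q ⟨_, hu⟩), mem_graph_beta hW u ⟨_, hu⟩ rfl⟩, rfl, rfl⟩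

/-- The Kronecker data over the graph ring, for a general series `u`. -/
theorem exists_graph_kron_gen (hqM : ¬ q ∣ M') (u : LaurentSeries ℤ)
    (hu : coeffMap (Int.castRingHom (AlgebraicClosure ℚ)) u ∈ modularFunctionFieldBar M')
    (K₁ : Type) [Field K₁] [Algebra ℚ K₁]
    (Wq : ModelField K₁ (M' * q) ≃ₐ[K₁] ModelField K₁ (M' * q))
    (hW : IsAtkinLehnerModel K₁ M' q Wq) :
    ∃ (Pstar G : Polynomial ↥(graphRing K₁ M' q Wq)),
      (X - C u) * Pstar.map (pi1 K₁ M' q Wq) = (heckeU q u).map (qExpand ℤ q) ∧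
      (Pstar.map (pi1 K₁ M' q Wq)).comp (X + C u) =
        X ^ (q - 1) * (X + C (u - qExpand ℤ q u ^ q)) - C (qExpand ℤ q u - u ^ q) +
          C (q : LaurentSeries ℤ) * G.map (pi1 K₁ M' q Wq) ∧
      (Pstar.map (pi1 K₁ M' q Wq)).Monic ∧ (Pstar.map (pi1 K₁ M' q Wq)).natDegree = q := by
  have hqp : q.Prime := hq.out
  obtain ⟨Ψ, δ, hΨdeg, hΨmem, hΨ, -, -, -, -⟩ := exists_kroneckerU_of_mem q M' hqM u hu
  have hψ : ∀ i, coeffMap (Int.castRingHom K₁) (Ψ.coeff i) ∈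
      laurentBaseChange K₁ (modularFunctionFieldFull M') :=
    fun i => int_mem_model_of_mem_bar K₁ _ _ (hΨmem i)
  have huK : coeffMap (Int.castRingHom K₁) u ∈
      laurentBaseChange K₁ (modularFunctionFieldFull M') :=
    int_mem_model_of_mem_bar K₁ _ _ hu
  obtain ⟨Ψ', hΨ'deg, hΨ'map⟩ := exists_graph_psi M' q K₁ Wq hW Ψ hΨdeg hψ
  obtain ⟨h, h₁, hπh, hπh₁⟩ := exists_graph_h_gen M' q u K₁ huK Wq hW
  have hU : (heckeU q u).map (qExpand ℤ q) =
      (X - C (pi1 K₁ M' q Wq h₁ ^ q)) * (X ^ q - C (pi1 K₁ M' q Wq h₁)) +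
        C (q : LaurentSeries ℤ) * Ψ'.map (pi1 K₁ M' q Wq) := by
    rw [hΨ, hΨ'map, hπh₁, kronU]
    simp only [Polynomial.map_add, Polynomial.map_sub, Polynomial.map_mul, Polynomial.map_pow,
      Polynomial.map_X, Polynomial.map_C, map_pow, zsmul_eq_mul,
      Int.cast_natCast, Polynomial.C_eq_natCast, Polynomial.map_natCast]
  have hroot : ((X - C (pi1 K₁ M' q Wq h₁ ^ q)) * (X ^ q - C (pi1 K₁ M' q Wq h₁)) +
      C (q : LaurentSeries ℤ) * Ψ'.map (pi1 K₁ M' q Wq)).eval (pi1 K₁ M' q Wq h) = 0 := by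
    rw [← hU, hπh]
    exact heckeU_map_eval_self q u
  obtain ⟨Pstar, G, hfac, hcomp, hmon, hdeg⟩ :=
    kron_transport (pi1 K₁ M' q Wq) pi1_injective q hqp h h₁ Ψ' hΨ'deg hroot
  refine ⟨Pstar, G, ?_, ?_, hmon, hdeg⟩
  · rw [hU, ← hfac, hπh]
  · rw [hπh, hπh₁] at hcomp
    exact hcomp

/-- The relation in `ℤ((t))`, for a general series `u`. -/
theorem rel_int_gen (u : LaurentSeries ℤ) (hne : qExpand ℤ q (qExpand ℤ q u) ≠ u)
    (Pst G₁ : Polynomial (LaurentSeries ℤ))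
    (hfac : (X - C u) * Pst = (heckeU q u).map (qExpand ℤ q))
    (hcomp : Pst.comp (X + C u) =
        X ^ (q - 1) * (X + C (u - qExpand ℤ q u ^ q)) - C (qExpand ℤ q u - u ^ q) +
          C (q : LaurentSeries ℤ) * G₁) :
    (qExpand ℤ q (qExpand ℤ q u) - u) ^ (q - 1) *
        ((qExpand ℤ q (qExpand ℤ q u) - u) + (u - qExpand ℤ q u ^ q)) -
      (qExpand ℤ q u - u ^ q) +
      (q : LaurentSeries ℤ) * G₁.eval (qExpand ℤ q (qExpand ℤ q u) - u) = 0 := by
  have h2 : Pst.eval (qExpand ℤ q (qExpand ℤ q u)) = 0 := by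
    have h := congrArg (Polynomial.eval (qExpand ℤ q (qExpand ℤ q u))) hfac
    rw [Polynomial.eval_mul, Polynomial.eval_sub, Polynomial.eval_X, Polynomial.eval_C,
      heckeU_map_eval_two q u] at h
    rcases mul_eq_zero.1 h with h0 | h0
    · exact absurd (sub_eq_zero.1 h0) hne
    · exact h0
  have h3 := congrArg (Polynomial.eval (qExpand ℤ q (qExpand ℤ q u) - u)) hcomp
  rw [Polynomial.eval_comp, Polynomial.eval_add, Polynomial.eval_X, Polynomial.eval_C,
    sub_add_cancel, h2] at h3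
  rw [h3]
  simp only [Polynomial.eval_add, Polynomial.eval_sub, Polynomial.eval_mul, Polynomial.eval_pow,
    Polynomial.eval_X, Polynomial.eval_C]

/-- **Generic KRON2** (any integer series `u` of level `M'`). -/
theorem modelKron2_gen (u : LaurentSeries ℤ)
    (hu : coeffMap (Int.castRingHom (AlgebraicClosure ℚ)) u ∈ modularFunctionFieldBar M')
    (hne : qExpand ℤ q (qExpand ℤ q u) ≠ u)
    (hNZ : ∀ Pst : Polynomial (LaurentSeries ℤ),
      (X - C u) * Pst = (heckeU q u).map (qExpand ℤ q) →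
      ∃ B : LaurentSeries ℤ, Pst.eval u = (q : LaurentSeries ℤ) * B ∧ redQ q B ≠ 0)
    (hqM : ¬ q ∣ M')
    (K₁ : Type) [Field K₁] [Algebra ℚ K₁]
    (Wq : ModelField K₁ (M' * q) ≃ₐ[K₁] ModelField K₁ (M' * q))
    (hW : IsAtkinLehnerModel K₁ M' q Wq) :
    ∃ G : Polynomial (ModelField K₁ (M' * q)),
      G.natDegree < q ∧
      (∀ i, ∃ g : LaurentSeries ℤ,
        ((G.coeff i : ModelField K₁ (M' * q)) : LaurentSeries K₁) =
          coeffMap (Int.castRingHom K₁) g) ∧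
      (∀ i, ∃ g : LaurentSeries ℤ,
        ((Wq (G.coeff i) : ModelField K₁ (M' * q)) : LaurentSeries K₁) =
          coeffMap (Int.castRingHom K₁) g) ∧
      (∃ B : LaurentSeries ℤ, redQ q B ≠ 0 ∧
        - coeffMap (Int.castRingHom K₁) (qExpand ℤ q u - u ^ q) + (q : LaurentSeries K₁) *
            ((G.coeff 0 : ModelField K₁ (M' * q)) : LaurentSeries K₁) =
          (q : LaurentSeries K₁) * coeffMap (Int.castRingHom K₁) B) ∧
      ∀ (X Y : ModelField K₁ (M' * q)) (Z : ModelField K₁ (M' * q * q)),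
        (X : LaurentSeries K₁) = coeffMap (Int.castRingHom K₁) (qExpand ℤ q u - u ^ q) →
        (Y : LaurentSeries K₁) = coeffMap (Int.castRingHom K₁) (u - qExpand ℤ q u ^ q) →
        (Z : LaurentSeries K₁) =
          coeffMap (Int.castRingHom K₁) (qExpand ℤ q (qExpand ℤ q u) - u) →
        Z ^ (q - 1) * (Z + heckeAlphaBar K₁ (M' * q) q Y) - heckeAlphaBar K₁ (M' * q) q X +
          (q : ModelField K₁ (M' * q * q)) *
            (G.map (heckeAlphaBar K₁ (M' * q) q).toRingHom).eval Z = 0 := by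
  have hqp : q.Prime := hq.out
  obtain ⟨Pstar, G, hfac, hcomp, hmon, hdeg⟩ := exists_graph_kron_gen M' q hqM u hu K₁ Wq hW
  have hGdeg : (G.map (pi2 K₁ M' q Wq)).natDegree < q := by
    have h1 : (G.map (pi1 K₁ M' q Wq)).natDegree < q := by
      refine natDegree_G_lt q hqp.two_le (natCast_ne_zero_laurent q)
        ((Pstar.map (pi1 K₁ M' q Wq)).comp (X + C u)) _ (qExpand ℤ q u - u ^ q)
        (u - qExpand ℤ q u ^ q) ?_ ?_ hcomp
      · refine hmon.comp (monic_X_add_C _) ?_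
        rw [natDegree_X_add_C]
        exact one_ne_zero
      · rw [Polynomial.natDegree_comp, hdeg, natDegree_X_add_C, mul_one]
    rw [Polynomial.natDegree_map_eq_of_injective pi1_injective] at h1
    exact lt_of_le_of_lt (Polynomial.natDegree_map_le) h1
  obtain ⟨B, hB, hBred⟩ := hNZ _ hfac
  have heval := Fermat.Agent.H62.SS2.kronecker_twice_eval q hqp u (qExpand ℤ q u)
    (Pstar.map (pi1 K₁ M' q Wq)) (G.map (pi1 K₁ M' q Wq)) hcomp
  refine ⟨G.map (pi2 K₁ M' q Wq), hGdeg, ?_, ?_, ⟨B, hBred, ?_⟩, ?_⟩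
  · intro i
    rw [Polynomial.coeff_map]
    exact ⟨_, coe_pi2 _⟩
  · intro i
    rw [Polynomial.coeff_map]
    exact wq_pi2 _
  · rw [Polynomial.coeff_map, coe_pi2, ← Polynomial.coeff_map,
      Polynomial.coeff_zero_eq_eval_zero]
    have h1 : -(qExpand ℤ q u - u ^ q) +
        (q : LaurentSeries ℤ) * (G.map (pi1 K₁ M' q Wq)).eval 0 = (q : LaurentSeries ℤ) * B := by
      rw [← hB, heval]
    have h2 := congrArg (coeffMap (Int.castRingHom K₁)) h1
    rw [map_add, map_neg, map_mul, map_mul, map_natCast] at h2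
    exact h2
  · intro X Y Z hX hY hZ
    rw [Polynomial.map_map]
    refine rel_transport_if (laurentBaseChange K₁ (modularFunctionFieldFull (M' * q * q)))
      (coeffMap (Int.castRingHom K₁)) (pi1 K₁ M' q Wq)
      ((heckeAlphaBar K₁ (M' * q) q).toRingHom.comp (pi2 K₁ M' q Wq)) ?_ q G Z
      (heckeAlphaBar K₁ (M' * q) q Y) (heckeAlphaBar K₁ (M' * q) q X)
      (qExpand ℤ q (qExpand ℤ q u) - u) (u - qExpand ℤ q u ^ q) (qExpand ℤ q u - u ^ q)
      ?_ ?_ ?_
      (rel_int_gen q u hne (Pstar.map (pi1 K₁ M' q Wq)) (G.map (pi1 K₁ M' q Wq)) hfac hcomp)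
    · intro r
      exact graph_square M' q K₁ Wq r
    · rw [hZ]
    · rw [coe_heckeAlphaBar, hY]
    · rw [coe_heckeAlphaBar, hX]

end Gen

end Fermat.Agent.H73.Kron2

end
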