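/-
P-SS2 (twins of row 1043), helper73: UNCONDITIONAL generic KRON2 for an integer series `u` with a
simple pole of residue 1 (`u = t⁻¹ + …`) lying in the modular function field of level `M'`
(helper6's `normZ_gen` supplies the norm statement), and its instance at the Hauptmodul `H₉`
of level 9 (helper31), for the case `q = 2`, `9 ∣ M'`.
-/
import Fermat.Agent.H73.SS2.Kron2Gen
import Fermat.Agent.H6.SS2.NormZGen
import Fermat.Agent.H31.SS.Haupt9Member

set_option autoImplicit false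
set_option linter.style.haveILetI false
set_option linter.unusedSectionVars false

noncomputable section

namespace Fermat.Agent.H73.Kron2

open Polynomial ModularCurve AlgebraicCurve
open Fermat.Agent.H22.KL Fermat.Agent.H8.SS Fermat.Agent.H82.SS Fermat.Agent.H86.SS2

section Pole

variable (M' q : ℕ) [NeZero M'] [NeZero q] [hq : Fact q.Prime]

/-- `u(t^(q²)) ≠ u` for `u = t⁻¹ + …`. -/
theorem qExpand_two_ne_self (u : LaurentSeries ℤ) (hu1 : u.coeff (-1) = 1) :
    qExpand ℤ q (qExpand ℤ q u) ≠ u := by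
  intro h
  have h1 := congrArg (fun x : LaurentSeries ℤ => x.coeff (-1)) h
  simp only [hu1] at h1
  rw [qExpand_coeff_of_not_dvd] at h1
  · exact zero_ne_one h1
  · intro hdvd
    have h2 : (q : ℤ) ∣ 1 := (dvd_neg.1 hdvd)
    have h3 : (q : ℤ) = 1 := Int.eq_one_of_dvd_one (by positivity) h2
    have : q = 1 := by exact_mod_cast h3
    exact hq.out.one_lt.ne' this

/-- **Generic KRON2, unconditional**: `u = t⁻¹ + …` an integer series of level `M'`. -/
theorem modelKron2_pole (u : LaurentSeries ℤ)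
    (hu : coeffMap (Int.castRingHom (AlgebraicClosure ℚ)) u ∈ modularFunctionFieldBar M')
    (hu1 : u.coeff (-1) = 1) (hu0 : ∀ n : ℤ, n < -1 → u.coeff n = 0)
    (hqM : ¬ q ∣ M')
    (K₁ : Type) [Field K₁] [Algebra ℚ K₁]
    (Wq : ModelField K₁ (M' * q) ≃ₐ[K₁] ModelField K₁ (M' * q))
    (hW : IsAtkinLehnerModel K₁ M' q Wq) :
    ∃ G : Polynomial (ModelField K₁ (M' * q)),
      G.natDegree < q ∧
      (∀ i, ∃ g : LaurentSeries ℤ,
        ((G.coeff i : ModelField K₁ (M' * q)) : LaurentSeries K₁) =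
          coeffMap (Int.castRingHom K₁) g) ∧
      (∀ i, ∃ g : LaurentSeries ℤ,
        ((Wq (G.coeff i) : ModelField K₁ (M' * q)) : LaurentSeries K₁) =
          coeffMap (Int.castRingHom K₁) g) ∧
      (∃ B : LaurentSeries ℤ, redQ q B ≠ 0 ∧
        - coeffMap (Int.castRingHom K₁) (qExpand ℤ q u - u ^ q) + (q : LaurentSeries K₁) *
            ((G.coeff 0 : ModelField K₁ (M' * q)) : LaurentSeries K₁) =
          (q : LaurentSeries K₁) * coeffMap (Int.castRingHom K₁) B) ∧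
      ∀ (X Y : ModelField K₁ (M' * q)) (Z : ModelField K₁ (M' * q * q)),
        (X : LaurentSeries K₁) = coeffMap (Int.castRingHom K₁) (qExpand ℤ q u - u ^ q) →
        (Y : LaurentSeries K₁) = coeffMap (Int.castRingHom K₁) (u - qExpand ℤ q u ^ q) →
        (Z : LaurentSeries K₁) =
          coeffMap (Int.castRingHom K₁) (qExpand ℤ q (qExpand ℤ q u) - u) →
        Z ^ (q - 1) * (Z + heckeAlphaBar K₁ (M' * q) q Y) - heckeAlphaBar K₁ (M' * q) q X +
          (q : ModelField K₁ (M' * q * q)) *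
            (G.map (heckeAlphaBar K₁ (M' * q) q).toRingHom).eval Z = 0 :=
  modelKron2_gen M' q u hu (qExpand_two_ne_self q u hu1)
    (fun Pst h => Fermat.Agent.H6.SS2.normZ_gen q u hu1 hu0 Pst h) hqM K₁ Wq hW

/-- **KRON2 at the Hauptmodul `H₉` of level 9** (for `q = 2`, or any prime `q ∤ M'`, `9 ∣ M'`):
`X1 = H1 - H^q`, `Y1 = H - H1^q`, `Z = H2 - H` with `H = h9S`, `H1 = H(t^q)`, `H2 = H(t^(q²))`. -/
theorem modelKron2_h9 (h9 : 9 ∣ M') (hqM : ¬ q ∣ M')
    (K₁ : Type) [Field K₁] [Algebra ℚ K₁]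
    (Wq : ModelField K₁ (M' * q) ≃ₐ[K₁] ModelField K₁ (M' * q))
    (hW : IsAtkinLehnerModel K₁ M' q Wq) :
    ∃ G : Polynomial (ModelField K₁ (M' * q)),
      G.natDegree < q ∧
      (∀ i, ∃ g : LaurentSeries ℤ,
        ((G.coeff i : ModelField K₁ (M' * q)) : LaurentSeries K₁) =
          coeffMap (Int.castRingHom K₁) g) ∧
      (∀ i, ∃ g : LaurentSeries ℤ,
        ((Wq (G.coeff i) : ModelField K₁ (M' * q)) : LaurentSeries K₁) =
          coeffMap (Int.castRingHom K₁) g) ∧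
      (∃ B : LaurentSeries ℤ, redQ q B ≠ 0 ∧
        - (qExpand K₁ q (Fermat.Agent.H31.SS.h9S K₁) - Fermat.Agent.H31.SS.h9S K₁ ^ q) +
            (q : LaurentSeries K₁) *
              ((G.coeff 0 : ModelField K₁ (M' * q)) : LaurentSeries K₁) =
          (q : LaurentSeries K₁) * coeffMap (Int.castRingHom K₁) B) ∧
      ∀ (X Y : ModelField K₁ (M' * q)) (Z : ModelField K₁ (M' * q * q)),
        (X : LaurentSeries K₁) =
          qExpand K₁ q (Fermat.Agent.H31.SS.h9S K₁) - Fermat.Agent.H31.SS.h9S K₁ ^ q →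
        (Y : LaurentSeries K₁) =
          Fermat.Agent.H31.SS.h9S K₁ - qExpand K₁ q (Fermat.Agent.H31.SS.h9S K₁) ^ q →
        (Z : LaurentSeries K₁) =
          qExpand K₁ q (qExpand K₁ q (Fermat.Agent.H31.SS.h9S K₁)) -
            Fermat.Agent.H31.SS.h9S K₁ →
        Z ^ (q - 1) * (Z + heckeAlphaBar K₁ (M' * q) q Y) - heckeAlphaBar K₁ (M' * q) q X +
          (q : ModelField K₁ (M' * q * q)) *
            (G.map (heckeAlphaBar K₁ (M' * q) q).toRingHom).eval Z = 0 := by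
  have hX : coeffMap (Int.castRingHom K₁)
      (qExpand ℤ q (Fermat.Agent.H31.SS.h9S ℤ) - Fermat.Agent.H31.SS.h9S ℤ ^ q) =
      qExpand K₁ q (Fermat.Agent.H31.SS.h9S K₁) - Fermat.Agent.H31.SS.h9S K₁ ^ q := by
    rw [map_sub, map_pow, ModularCurve.coeffMap_qExpand, Fermat.Agent.H31.SS.coeffMap_h9S]
  have hY : coeffMap (Int.castRingHom K₁)
      (Fermat.Agent.H31.SS.h9S ℤ - qExpand ℤ q (Fermat.Agent.H31.SS.h9S ℤ) ^ q) =
      Fermat.Agent.H31.SS.h9S K₁ - qExpand K₁ q (Fermat.Agent.H31.SS.h9S K₁) ^ q := by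
    rw [map_sub, map_pow, ModularCurve.coeffMap_qExpand, Fermat.Agent.H31.SS.coeffMap_h9S]
  have hZ : coeffMap (Int.castRingHom K₁)
      (qExpand ℤ q (qExpand ℤ q (Fermat.Agent.H31.SS.h9S ℤ)) - Fermat.Agent.H31.SS.h9S ℤ) =
      qExpand K₁ q (qExpand K₁ q (Fermat.Agent.H31.SS.h9S K₁)) -
        Fermat.Agent.H31.SS.h9S K₁ := by
    rw [map_sub, ModularCurve.coeffMap_qExpand, ModularCurve.coeffMap_qExpand,
      Fermat.Agent.H31.SS.coeffMap_h9S]
  have key := modelKron2_pole M' q (Fermat.Agent.H31.SS.h9S ℤ)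
    (by rw [Fermat.Agent.H31.SS.coeffMap_h9S]; exact Fermat.Agent.H31.SS.h9S_mem_bar M' h9)
    (Fermat.Agent.H31.SS.h9S_coeff_neg_one ℤ)
    (fun n hn => Fermat.Agent.H31.SS.h9S_coeff_of_lt ℤ hn) hqM K₁ Wq hW
  rw [hX, hY, hZ] at key
  exact key

end Pole

end Fermat.Agent.H73.Kron2

end
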